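import Fermat.Agent.S56.GW.Dual.X2.Pre
import Fermat.Agent.S56.GW.Dual.XK.Stmt

/-!
# S56, [GW-DUAL] seam [X2] from the cochain core (prefix `s56gdx_`)

`s56gdx_main : s56gdk_CoreE_stmt → s56gdk_CoreL_stmt → s56gd_X2_stmt`.
-/

set_option autoImplicit false
set_option linter.unusedSectionVars false

open CategoryTheory groupCohomology ExtCitation

namespace Fermat.Agent.S56

open Fermat.Agent.S55

local notation "Qbar" => AlgebraicClosure ℚ
local notation "GQ" => (AlgebraicClosure ℚ ≃ₐ[ℚ] AlgebraicClosure ℚ)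

/-- **[X2]** from the cochain core [XK-E] + [XK-L]. -/
theorem s56gdx_main (hE : s56gdk_CoreE_stmt) (hL : s56gdk_CoreL_stmt) : s56gd_X2_stmt := by
  intro p _ hp2 M _ hsm S hpS hur b hb ψ φF hsum hφ
  obtain ⟨b', h, hb', ψ', φF', Ψ, u, ut, hsum', hΨ, hu, hut, hlam⟩ :=
    s56gdx_pre hp2 M hsm S hpS b hb ψ φF hsum hφ
  -- the θ-data
  have hψ' : ∀ (r : (s56gd_R M hsm).V) (q : ↥S),
      Ψ ((la_ι (s56gd_A M hsm)).hom r) q - ((s56gd_seam hp2 S hpS).ε b' q).hom (u r) =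
        (ψ' q).hom r := by
    intro r q
    rw [hu r q]
    abel
  have hθ : s56gdk_IsTheta hp2 M hsm S hpS b' Ψ ut u := by
    refine ⟨fun r => (hut r).symm, fun σ f => ?_, fun σ r q => ?_⟩
    · rw [hΨ, hΨ]
      have h1 := Rep.hom_comm_apply φF' (b'.q σ) f
      have h2 : (s56gd_Fb M hsm S b' hb').ρ (b'.q σ) f =
          (s56gd_F M hsm).ρ (s56gd_pi0 M hsm σ) f := by
        have h3 : s56gd_ra M hsm (s56gd_Fld.ofLev b') hb' (b'.q σ) = s56gd_pi0 M hsm σ :=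
          s56gd_ra_q M hsm (s56gd_Fld.ofLev b') hb' σ
        show (s56gd_F M hsm).ρ (s56gd_ra M hsm (s56gd_Fld.ofLev b') hb' (b'.q σ)) f = _
        rw [h3]
      rw [h2] at h1
      exact h1
    · rw [hψ', hψ']
      have h1 := Rep.hom_comm_apply (ψ' q) (b'.q σ) r
      have h2 : (s56gd_Rb M hsm S b' hb').ρ (b'.q σ) r =
          (s56gd_R M hsm).ρ (s56gd_pi0 M hsm σ) r := by
        have h3 : s56gd_ra M hsm (s56gd_Fld.ofLev b') hb' (b'.q σ) = s56gd_pi0 M hsm σ :=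
          s56gd_ra_q M hsm (s56gd_Fld.ofLev b') hb' σ
        show (s56gd_R M hsm).ρ (s56gd_ra M hsm (s56gd_Fld.ofLev b') hb' (b'.q σ)) r = _
        rw [h3]
      rw [h2] at h1
      exact h1
  obtain ⟨z, hz⟩ := hE p hp2 M hsm S hpS hur b' hb' Ψ ut u hθ
  refine ⟨lvH1mk (tl_levelsS S) (tl_Act M) z, fun q => ?_⟩
  rw [← hlam q]
  refine hL p hp2 M hsm S hpS hur b' hb' Ψ ut u hθ z hz q _ (fun r => ?_)
  rw [hψ' r q]
  rfl

end Fermat.Agent.S56
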