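import Fermat.Agent.S56.GW.Dual.Global
import Fermat.Agent.S55.Dual.XDelta
import Fermat.Agent.S55.Dual.HomBridge
import Fermat.Agent.S55.Dual.ExtDiv
import Fermat.Agent.S55.Dual.ModulesLevel

/-!
# S56, [GW-DUAL] seam [X2]: raising the level and the cochain data (prefix `s56gdx_`)
-/

set_option autoImplicit false
set_option linter.unusedSectionVars false

open CategoryTheory groupCohomology ExtCitation

namespace Fermat.Agent.S56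

open Fermat.Agent.S55

local notation "Qbar" => AlgebraicClosure ℚ
local notation "GQ" => (AlgebraicClosure ℚ ≃ₐ[ℚ] AlgebraicClosure ℚ)

noncomputable section

section Raise

variable {p : ℕ} [Fact p.Prime] (M : Rep.{0} (ZMod p) GQ) [FiniteDimensional (ZMod p) M]
  (hsm : s56gw_Smooth M) {S : Finset Nat.Primes} (𝔖 : du_Seam p S) {b b' : du_Lev S}
  (h : b ≤ b') (hb : s56gd_K0 M hsm ≤ s56gd_Fld.ofLev b)
  (hb' : s56gd_K0 M hsm ≤ s56gd_Fld.ofLev b')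

/-- The restrictions to `Δ₀` from two levels agree on `G_ℚ`. -/
theorem s56gdx_ra_q (σ : GQ) :
    s56gd_ra M hsm (s56gd_Fld.ofLev b') hb' (b'.q σ) =
      s56gd_ra M hsm (s56gd_Fld.ofLev b) hb (b.q σ) :=
  (s56gd_ra_q M hsm (s56gd_Fld.ofLev b') hb' σ).trans
    (s56gd_ra_q M hsm (s56gd_Fld.ofLev b) hb σ).symm

variable (Y : Rep.{0} ℤ (s56gd_K0 M hsm).Γ)

/-- Transport of a morphism `Y_b ⟶ J_q(b)` to a higher level. -/
def s56gdx_upJ (q : ↥S)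
    (ψ : Rep.res (s56gd_ra M hsm (s56gd_Fld.ofLev b) hb) Y ⟶ (𝔖.dat b).Jq q) :
    (Rep.res (s56gd_ra M hsm (s56gd_Fld.ofLev b') hb') Y : Rep.{0} ℤ b'.Γ) ⟶
      (𝔖.dat b').Jq q :=
  la_ofAddHom
    { toFun := fun v => 𝔖.tJ h q (ψ.hom v)
      map_zero' := by rw [map_zero, map_zero]
      map_add' := fun v w => by rw [map_add, map_add] }
    (by
      intro g v
      obtain ⟨σ, rfl⟩ := b'.q_surjective g
      show 𝔖.tJ h q (ψ.hom (Y.ρ (s56gd_ra M hsm (s56gd_Fld.ofLev b') hb' (b'.q σ)) v)) =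
        ((𝔖.dat b').Jq q).ρ (b'.q σ) (𝔖.tJ h q (ψ.hom v))
      rw [s56gdx_ra_q M hsm hb hb', ← 𝔖.tJ_equiv h q σ]
      congr 1
      exact Rep.hom_comm_apply ψ (b.q σ) v)

theorem s56gdx_upJ_apply (q : ↥S)
    (ψ : Rep.res (s56gd_ra M hsm (s56gd_Fld.ofLev b) hb) Y ⟶ (𝔖.dat b).Jq q) (v : Y.V) :
    (s56gdx_upJ M hsm 𝔖 h hb hb' Y q ψ).hom v = 𝔖.tJ h q (ψ.hom v) := rfl

/-- Transport of a morphism `Y_b ⟶ C(b)` to a higher level. -/
def s56gdx_upC (φ : Rep.res (s56gd_ra M hsm (s56gd_Fld.ofLev b) hb) Y ⟶ (𝔖.dat b).C) :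
    (Rep.res (s56gd_ra M hsm (s56gd_Fld.ofLev b') hb') Y : Rep.{0} ℤ b'.Γ) ⟶ (𝔖.dat b').C :=
  la_ofAddHom
    { toFun := fun v => 𝔖.tC h (φ.hom v)
      map_zero' := by rw [map_zero, map_zero]
      map_add' := fun v w => by rw [map_add, map_add] }
    (by
      intro g v
      obtain ⟨σ, rfl⟩ := b'.q_surjective g
      show 𝔖.tC h (φ.hom (Y.ρ (s56gd_ra M hsm (s56gd_Fld.ofLev b') hb' (b'.q σ)) v)) =
        (𝔖.dat b').C.ρ (b'.q σ) (𝔖.tC h (φ.hom v))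
      rw [s56gdx_ra_q M hsm hb hb', ← 𝔖.tC_equiv h σ]
      congr 1
      exact Rep.hom_comm_apply φ (b.q σ) v)

theorem s56gdx_upC_apply
    (φ : Rep.res (s56gd_ra M hsm (s56gd_Fld.ofLev b) hb) Y ⟶ (𝔖.dat b).C) (v : Y.V) :
    (s56gdx_upC M hsm 𝔖 h hb hb' Y φ).hom v = 𝔖.tC h (φ.hom v) := rfl

end Raise

/-! ### Raising the level of a pair `(ψ, φ_F)` -/

section Pair

variable {p : ℕ} [Fact p.Prime] (M : Rep.{0} (ZMod p) GQ) [FiniteDimensional (ZMod p) M]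
  (hsm : s56gw_Smooth M) {S : Finset Nat.Primes} (𝔖 : du_Seam p S) {b b' : du_Lev S}
  (h : b ≤ b') (hb : s56gd_K0 M hsm ≤ s56gd_Fld.ofLev b)
  (hb' : s56gd_K0 M hsm ≤ s56gd_Fld.ofLev b')
  (ψ : ∀ q : ↥S, s56gd_Rb M hsm S b hb ⟶ (𝔖.dat b).Jq q)
  (φF : s56gd_Fb M hsm S b hb ⟶ (𝔖.dat b).C)

/-- The relation `Σ_q j_q ψ_q = φ_F ∘ ι`, pointwise. -/
theorem s56gdx_sum_apply
    (hsum : ∑ q : ↥S, ψ q ≫ (𝔖.dat b).j q = s56gd_ib M hsm S b hb ≫ φF)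
    (r : (s56gd_R M hsm).V) :
    ∑ q : ↥S, ((𝔖.dat b).j q).hom ((ψ q).hom r) =
      φF.hom ((la_ι (s56gd_A M hsm)).hom r) := by
  have h1 := congrArg (fun f => f.hom r) hsum
  simp only [] at h1
  rw [xd_sum_hom] at h1
  exact h1

/-- The relation `Σ_q j_q ψ_q = φ_F ∘ ι` from its pointwise form. -/
theorem s56gdx_sum_of_apply
    (hsum : ∀ r : (s56gd_R M hsm).V, ∑ q : ↥S, ((𝔖.dat b).j q).hom ((ψ q).hom r) =
      φF.hom ((la_ι (s56gd_A M hsm)).hom r)) :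
    ∑ q : ↥S, ψ q ≫ (𝔖.dat b).j q = s56gd_ib M hsm S b hb ≫ φF := by
  refine Rep.hom_ext (DFunLike.ext _ _ fun r => ?_)
  rw [xd_sum_hom]
  exact hsum r

/-- The relation `Σ_q j_q ψ_q = φ_F ∘ ι` is preserved by raising the level. -/
theorem s56gdx_up_sum
    (hsum : ∑ q : ↥S, ψ q ≫ (𝔖.dat b).j q = s56gd_ib M hsm S b hb ≫ φF) :
    ∑ q : ↥S, s56gdx_upJ M hsm 𝔖 h hb hb' (s56gd_R M hsm) q (ψ q) ≫ (𝔖.dat b').j q =
      s56gd_ib M hsm S b' hb' ≫ s56gdx_upC M hsm 𝔖 h hb hb' (s56gd_F M hsm) φF := by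
  refine s56gdx_sum_of_apply M hsm 𝔖 hb' _ _ (fun r => ?_)
  show ∑ q : ↥S, ((𝔖.dat b').j q).hom (𝔖.tJ h q ((ψ q).hom r)) =
    𝔖.tC h (φF.hom ((la_ι (s56gd_A M hsm)).hom r))
  rw [← s56gdx_sum_apply M hsm 𝔖 hb ψ φF hsum r, map_sum]
  exact Finset.sum_congr rfl (fun q _ => (𝔖.tC_j h q _).symm)

end Pair

/-! ### The local homomorphisms do not change when the level is raised -/

section Lam

variable {p : ℕ} [Fact p.Prime] (hp2 : p ≠ 2) (M : Rep.{0} (ZMod p) GQ)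
  [FiniteDimensional (ZMod p) M]
  (hsm : s56gw_Smooth M) (S : Finset Nat.Primes) (hpS : pPrime p ∈ S) {b b' : du_Lev S}
  (h : b ≤ b') (hb : s56gd_K0 M hsm ≤ s56gd_Fld.ofLev b)
  (hb' : s56gd_K0 M hsm ≤ s56gd_Fld.ofLev b') (q : ↥S)
  (ψ : s56gd_Rb M hsm S b hb ⟶ ((s56gd_seam hp2 S hpS).dat b).Jq q)

/-- `λ_q ∘ pr_q ∘ res (t_J ∘ ψ) = λ_q ∘ pr_q ∘ res ψ`. -/
theorem s56gdx_up_lamt :
    s56gd_lamt M hsm (s56gd_Fld.ofLev b') hb' q.1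
      ((Rep.resFunctor (((s56gd_seam hp2 S hpS).dat b').D q).subtype).map
        (s56gdx_upJ M hsm (s56gd_seam hp2 S hpS) h hb hb' (s56gd_R M hsm) q ψ) ≫
          ((s56gd_seam hp2 S hpS).dat b').pr q) =
    s56gd_lamt M hsm (s56gd_Fld.ofLev b) hb q.1
      ((Rep.resFunctor (((s56gd_seam hp2 S hpS).dat b).D q).subtype).map ψ ≫
          ((s56gd_seam hp2 S hpS).dat b).pr q) := by
  apply Subtype.ext
  refine LvHom.ext fun r => ?_
  exact (s56gd_seam hp2 S hpS).tJ_lam h q (ψ.hom r)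

end Lam

/-! ### The cochain data of a pair `(ψ, φ_F)` with `φ_F` valued in `C°` -/

section Data

variable {p : ℕ} [Fact p.Prime] (M : Rep.{0} (ZMod p) GQ) [FiniteDimensional (ZMod p) M]
  (hsm : s56gw_Smooth M) {S : Finset Nat.Primes} (𝔖 : du_Seam p S) (b : du_Lev S)
  (hb : s56gd_K0 M hsm ≤ s56gd_Fld.ofLev b)
  (ψ : ∀ q : ↥S, s56gd_Rb M hsm S b hb ⟶ (𝔖.dat b).Jq q)
  (φF : s56gd_Fb M hsm S b hb ⟶ (𝔖.dat b).C)

/-- The sum of the maps `j_q` on `∏_q J_q(b)`. -/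
def s56gdx_sumJ : (∀ q : ↥S, ((𝔖.dat b).Jq q).V) →+ (𝔖.dat b).C.V :=
  AddMonoidHom.mk' (fun x => ∑ q : ↥S, ((𝔖.dat b).j q).hom (x q)) (fun x y => by
    rw [← Finset.sum_add_distrib]
    exact Finset.sum_congr rfl (fun q _ => map_add _ _ _))

theorem s56gdx_sumJ_apply (x : ∀ q : ↥S, ((𝔖.dat b).Jq q).V) :
    s56gdx_sumJ 𝔖 b x = ∑ q : ↥S, ((𝔖.dat b).j q).hom (x q) := rfl

/-- **Lift**: a `C°`-valued `φ_F` on the free module `F` lifts to `∏_q J_q(b)`. -/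
theorem s56gdx_exists_lift (hCo : ∀ f, φF.hom f ∈ du_Co (𝔖.dat b)) :
    ∃ φt : (s56gd_F M hsm).V →+ (∀ q : ↥S, ((𝔖.dat b).Jq q).V),
      ∀ f, ∑ q : ↥S, ((𝔖.dat b).j q).hom (φt f q) = φF.hom f := by
  obtain ⟨n, ⟨e⟩⟩ := s56gd_isLattice_Fb M hsm S b hb
  let π : (∀ q : ↥S, ((𝔖.dat b).Jq q).V) →+ ↥(du_Co (𝔖.dat b)) :=
    (s56gdx_sumJ 𝔖 b).codRestrict (du_Co (𝔖.dat b)) (fun x => by
      rw [s56gdx_sumJ_apply]
      exact sum_mem (fun q _ => sl_j_mem_Co 𝔖 q _))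
  have hπ : Function.Surjective π := by
    rintro ⟨c, hc⟩
    obtain ⟨x, hx⟩ := sl_exists_sum_eq' 𝔖 hc
    refine ⟨fun q => tl_ofAct _ (x q), Subtype.ext ?_⟩
    show s56gdx_sumJ 𝔖 b (fun q => tl_ofAct _ (x q)) = c
    rw [← hx, sl_ofAct_sum]
    rfl
  let g : (s56gd_F M hsm).V →+ ↥(du_Co (𝔖.dat b)) :=
    { toFun := fun f => ⟨φF.hom f, hCo f⟩
      map_zero' := Subtype.ext (map_zero _)
      map_add' := fun f f' => Subtype.ext (map_add _ _ _) }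
  obtain ⟨g', hg'⟩ := lvLift_of_free e π hπ g
  exact ⟨g', fun f => congrArg Subtype.val (hg' f)⟩

variable [Nonempty ↥S]

/-- **The units**: `φ̃ ∘ ι − ψ` is valued in the diagonal image of `E(b)`. -/
theorem s56gdx_exists_u
    (hsum : ∑ q : ↥S, ψ q ≫ (𝔖.dat b).j q = s56gd_ib M hsm S b hb ≫ φF)
    (φt : (s56gd_F M hsm).V →+ (∀ q : ↥S, ((𝔖.dat b).Jq q).V))
    (hφt : ∀ f, ∑ q : ↥S, ((𝔖.dat b).j q).hom (φt f q) = φF.hom f) :
    ∃ u : (s56gd_R M hsm).V →+ (𝔖.E b).V, ∀ (r : (s56gd_R M hsm).V) (q : ↥S),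
      φt ((la_ι (s56gd_A M hsm)).hom r) q = (ψ q).hom r + (𝔖.ε b q).hom (u r) := by
  have hex : ∀ r : (s56gd_R M hsm).V, ∃ e : (𝔖.E b).V, ∀ q : ↥S,
      (𝔖.ε b q).hom e = φt ((la_ι (s56gd_A M hsm)).hom r) q - (ψ q).hom r := by
    intro r
    refine (𝔖.ε_exact b _).1 ?_
    simp only [map_sub]
    rw [Finset.sum_sub_distrib, hφt, s56gdx_sum_apply M hsm 𝔖 hb ψ φF hsum r, sub_self]
  choose u₀ hu₀ using hex
  obtain ⟨q₀⟩ := (inferInstance : Nonempty ↥S)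
  have hinj := 𝔖.ε_inj b q₀
  refine ⟨{ toFun := u₀, map_zero' := hinj ?_, map_add' := fun r r' => hinj ?_ }, fun r q => ?_⟩
  · rw [hu₀, map_zero, map_zero, map_zero, map_zero]
    exact sub_zero _
  · rw [map_add, hu₀, hu₀, hu₀, map_add, map_add, map_add]
    show φt _ q₀ + φt _ q₀ - _ = _
    abel
  · show _ = _ + (𝔖.ε b q).hom (u₀ r)
    rw [hu₀]
    abel

/-- **Extension**: a homomorphism `R → E(b)` extends to `F → E_S` (`E_S` is `p`-divisible,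
`F / R = M'` is a finite `p`-group). -/
theorem s56gdx_exists_ext (hpS : pPrime p ∈ S) (u : (s56gd_R M hsm).V →+ (𝔖.E b).V) :
    ∃ ut : (s56gd_F M hsm).V →+ dm_ES S, ∀ r : (s56gd_R M hsm).V,
      ut ((la_ι (s56gd_A M hsm)).hom r) = dm_ql_incl 𝔖 b (u r) := by
  have := s56gd_finite_A M hsm
  let ι : (s56gd_R M hsm).V →+ (s56gd_F M hsm).V := (la_ι (s56gd_A M hsm)).hom
  let π : (s56gd_F M hsm).V →+ (s56gd_A M hsm).V := (la_π (s56gd_A M hsm)).hom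
  have hι : Function.Injective ι := dm_la_ι_injective (s56gd_A M hsm)
  have hker : π.ker = ι.range := by
    ext f
    rw [AddMonoidHom.mem_ker, AddMonoidHom.mem_range]
    exact s56gd_pa_exact M hsm f
  have : Finite ((s56gd_F M hsm).V ⧸ ι.range) := by
    rw [← hker]
    exact Finite.of_equiv _ (QuotientAddGroup.quotientKerEquivOfSurjective π
      (la_π_surjective (s56gd_A M hsm))).symm.toEquiv
  have hFR : ∀ x : (s56gd_F M hsm).V, ∃ k : ℕ, p ^ k • x ∈ ι.range := by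
    intro x
    refine ⟨1, ?_⟩
    rw [pow_one, ← hker, AddMonoidHom.mem_ker, map_nsmul]
    apply (s56gd_e M hsm).injective
    rw [map_nsmul, map_zero]
    exact s56gd_nsmul_act (s56gw_dual M) _
  let e : (s56gd_R M hsm).V ≃+ ι.range := AddMonoidHom.ofInjective hι
  obtain ⟨ut, hut⟩ := ex_extend p ι.range hFR (dm_ES_divisible S (p := pPrime p) hpS)
    (((dm_ql_incl 𝔖 b).comp u).comp e.symm.toAddMonoidHom)
  refine ⟨ut, fun r => ?_⟩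
  have h1 := hut (e r)
  simp only [AddMonoidHom.comp_apply, AddEquiv.coe_toAddMonoidHom, AddEquiv.symm_apply_apply]
    at h1
  exact h1

end Data

/-! ### The first half of [X2] -/

/-- **[X2], first half.**  A pair `(ψ, φ_F)` at the level `b` with `Σ_q j_q ψ_q = φ_F ∘ ι` and
`φ_F ∈ du_Cinf` gives, at a higher level `b'`, a pair `(ψ', φ_F')` with the same relation and the
same local homomorphisms `λ_q ∘ pr_q ∘ res ψ_q`, together with the cochain data: a lift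
`φ̃ : F → ∏_q J_q(b')` of `φ_F'`, the units `u : R → E(b')` with `φ̃ ∘ ι = ψ' + ε ∘ u`, and an
extension `ũ : F → E_S` of `u`. -/
theorem s56gdx_pre {p : ℕ} [Fact p.Prime] (hp2 : p ≠ 2) (M : Rep.{0} (ZMod p) GQ)
    [FiniteDimensional (ZMod p) M] (hsm : s56gw_Smooth M) (S : Finset Nat.Primes)
    (hpS : pPrime p ∈ S) (b : du_Lev S) (hb : s56gd_K0 M hsm ≤ s56gd_Fld.ofLev b)
    (ψ : ∀ q : ↥S, s56gd_Rb M hsm S b hb ⟶ ((s56gd_seam hp2 S hpS).dat b).Jq q)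
    (φF : s56gd_Fb M hsm S b hb ⟶ ((s56gd_seam hp2 S hpS).dat b).C)
    (hsum : ∑ q : ↥S, ψ q ≫ ((s56gd_seam hp2 S hpS).dat b).j q = s56gd_ib M hsm S b hb ≫ φF)
    (hφ : φF ∈ du_Cinf (s56gd_seam hp2 S hpS) b (s56gd_Fb M hsm S b hb)) :
    ∃ (b' : du_Lev S) (_ : b ≤ b') (hb' : s56gd_K0 M hsm ≤ s56gd_Fld.ofLev b')
      (ψ' : ∀ q : ↥S, s56gd_Rb M hsm S b' hb' ⟶ ((s56gd_seam hp2 S hpS).dat b').Jq q)
      (φF' : s56gd_Fb M hsm S b' hb' ⟶ ((s56gd_seam hp2 S hpS).dat b').C)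
      (φt : (s56gd_F M hsm).V →+ (∀ q : ↥S, (((s56gd_seam hp2 S hpS).dat b').Jq q).V))
      (u : (s56gd_R M hsm).V →+ ((s56gd_seam hp2 S hpS).E b').V)
      (ut : (s56gd_F M hsm).V →+ dm_ES S),
      (∑ q : ↥S, ψ' q ≫ ((s56gd_seam hp2 S hpS).dat b').j q =
        s56gd_ib M hsm S b' hb' ≫ φF') ∧
      (∀ f, ∑ q : ↥S, (((s56gd_seam hp2 S hpS).dat b').j q).hom (φt f q) = φF'.hom f) ∧
      (∀ (r : (s56gd_R M hsm).V) (q : ↥S), φt ((la_ι (s56gd_A M hsm)).hom r) q =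
        (ψ' q).hom r + ((s56gd_seam hp2 S hpS).ε b' q).hom (u r)) ∧
      (∀ r : (s56gd_R M hsm).V, ut ((la_ι (s56gd_A M hsm)).hom r) =
        dm_ql_incl (s56gd_seam hp2 S hpS) b' (u r)) ∧
      ∀ q : ↥S,
        s56gd_lamt M hsm (s56gd_Fld.ofLev b') hb' q.1
          ((Rep.resFunctor (((s56gd_seam hp2 S hpS).dat b').D q).subtype).map (ψ' q) ≫
            ((s56gd_seam hp2 S hpS).dat b').pr q) =
        s56gd_lamt M hsm (s56gd_Fld.ofLev b) hb q.1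
          ((Rep.resFunctor (((s56gd_seam hp2 S hpS).dat b).D q).subtype).map (ψ q) ≫
            ((s56gd_seam hp2 S hpS).dat b).pr q) := by
  have : Nonempty ↥S := ⟨⟨pPrime p, hpS⟩⟩
  obtain ⟨b', h, hCo⟩ := hφ
  have hb' : s56gd_K0 M hsm ≤ s56gd_Fld.ofLev b' :=
    le_trans (α := IntermediateField ℚ Qbar) hb h
  have hsum' := s56gdx_up_sum M hsm (s56gd_seam hp2 S hpS) h hb hb' ψ φF hsum
  obtain ⟨φt, hφt⟩ := s56gdx_exists_lift M hsm (s56gd_seam hp2 S hpS) b' hb'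
    (s56gdx_upC M hsm (s56gd_seam hp2 S hpS) h hb hb' (s56gd_F M hsm) φF) (fun f => hCo f)
  obtain ⟨u, hu⟩ := s56gdx_exists_u M hsm (s56gd_seam hp2 S hpS) b' hb'
    (fun q => s56gdx_upJ M hsm (s56gd_seam hp2 S hpS) h hb hb' (s56gd_R M hsm) q (ψ q))
    (s56gdx_upC M hsm (s56gd_seam hp2 S hpS) h hb hb' (s56gd_F M hsm) φF) hsum' φt hφt
  obtain ⟨ut, hut⟩ := s56gdx_exists_ext M hsm (s56gd_seam hp2 S hpS) b' hpS u
  exact ⟨b', h, hb', _, _, φt, u, ut, hsum', hφt, hu, hut,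
    fun q => s56gdx_up_lamt hp2 M hsm S hpS h hb hb' q (ψ q)⟩

end

end Fermat.Agent.S56
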